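import Fermat.Agent.GAL.Cheb.Main
import Fermat.Agent.GR.Asm.Residual

/-!
# CHEB : exports in the shapes used by the consumers

* `weakChebotarev_asm : Fermat.Agent.GR.Asm.WeakChebotarev` (contract I2),
* `weak_chebotarev_gen` : the form of the master skeleton (the Frobenius element and `g` generate
  the same cyclic subgroup of `Gal(L/ℚ)`).
-/

set_option autoImplicit false

namespace Fermat.Agent.GAL.Cheb

open NumberField IsDedekindDomain Fermat.Agent.S14.An
open scoped Pointwise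

local notation "Qbar" => AlgebraicClosure ℚ
local notation "GQ" => (AlgebraicClosure ℚ ≃ₐ[ℚ] AlgebraicClosure ℚ)

/-- contract I2. -/
theorem weakChebotarev_asm : Fermat.Agent.GR.Asm.WeakChebotarev :=
  fun L _ T g => weakChebotarev L T g

theorem restrict_pow_apply (E : IntermediateField ℚ Qbar) (φ : E ≃ₐ[ℚ] E) (σ : GQ)
    (h : ∀ x : E, ((φ x : E) : Qbar) = σ (x : Qbar)) (n : ℕ) (y : E) :
    (((φ ^ n) y : E) : Qbar) = (σ ^ n) (y : Qbar) := by
  induction n generalizing y with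
  | zero => simp
  | succ n ih => rw [pow_succ, pow_succ, AlgEquiv.mul_apply, AlgEquiv.mul_apply, ih, h]

/-- **weak Chebotarev, generator form**: every cyclic subgroup of `Gal(L/ℚ)` is generated by the
restriction of a Frobenius element at a prime outside `T`; moreover the inertia group at the
place acts trivially on `L`. -/
theorem weak_chebotarev_finset (L : IntermediateField ℚ Qbar) [FiniteDimensional ℚ L]
    [IsGalois ℚ L] (T : Finset ℕ) (g : GQ) :
    ∃ (ℓ : ℕ) (A : ValuationSubring Qbar) (σ : GQ) (a b : ℕ), ℓ.Prime ∧ ℓ ∉ T ∧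
      A.LiesOverPrime ℓ ∧ A.IsFrobeniusAt σ ℓ ∧
      (∀ x ∈ L, (σ ^ a) x = g x) ∧ (∀ x ∈ L, (g ^ b) x = σ x) := by
  have : NumberField L := { to_charZero := inferInstance, to_finiteDimensional := inferInstance }
  obtain ⟨τ, hτ⟩ := Fermat.Agent.S14.exists_restrict L g
  obtain ⟨v, hT, hI, hD⟩ := exists_dec_eq_zpowers L T τ
  have hℓ := degUnder_prime v
  obtain ⟨A, hA⟩ := Fermat.Agent.S14.exists_valuationSubring_over L v.asIdeal v.isPrime
  have hmem : ((degUnder v : ℕ) : 𝓞 L) ∈ v.asIdeal := by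
    have h1 := degUnder_liesOver v
    have h2 : ((degUnder v : ℕ) : ℤ) ∈ Ideal.span {((degUnder v : ℕ) : ℤ)} :=
      Ideal.mem_span_singleton_self _
    rw [h1.over, Ideal.mem_comap] at h2
    simpa using h2
  have hAℓ : A.LiesOverPrime (degUnder v) := by
    have := (hA ((degUnder v : ℕ) : 𝓞 L)).1 hmem
    simpa [ValuationSubring.LiesOverPrime] using this
  obtain ⟨σ, hσ⟩ := Fermat.Agent.Lib.FrobeniusExists.exists_isFrobeniusAt_rat A hℓ hAℓ
  obtain ⟨φ, hφσ⟩ := Fermat.Agent.S14.exists_restrict L σ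
  have hfrob : ∀ x : 𝓞 L,
      RingOfIntegers.mapRingEquiv (φ : L ≃+* L) x - x ^ degUnder v ∈ v.asIdeal := by
    intro x
    rw [hA]
    have hxint : IsIntegral ℤ (((x : L) : Qbar)) := x.2.map L.val
    have hxA : (((x : L) : Qbar)) ∈ A :=
      Fermat.Agent.Lib.FrobeniusExists.integralClosure_le A ⟨_, hxint⟩
    have h1 := sub_pow_mem_nonunits hσ _ hxA
    rw [← hφσ] at h1
    simpa using h1
  have h3 : Dec v = Subgroup.zpowers φ := dec_eq_zpowers v hI φ (fun x => hfrob x)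
  have h4 : τ ∈ Subgroup.zpowers φ := by
    rw [← h3, hD]
    exact Subgroup.mem_zpowers τ
  have h5 : φ ∈ Subgroup.zpowers τ := by
    rw [← hD, h3]
    exact Subgroup.mem_zpowers φ
  rw [← mem_powers_iff_mem_zpowers] at h4 h5
  obtain ⟨a, ha⟩ := h4
  obtain ⟨b, hb⟩ := h5
  refine ⟨degUnder v, A, σ, a, b, hℓ, hT, hAℓ, hσ, fun x hx => ?_, fun x hx => ?_⟩
  · have h6 := restrict_pow_apply L φ σ hφσ a ⟨x, hx⟩
    have ha' : φ ^ a = τ := ha
    rw [ha', hτ] at h6
    exact h6.symm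
  · have h6 := restrict_pow_apply L τ g hτ b ⟨x, hx⟩
    have hb' : τ ^ b = φ := hb
    rw [hb', hφσ] at h6
    exact h6.symm

/-- the statement (E) of the master skeleton. -/
theorem weak_chebotarev (L : IntermediateField ℚ Qbar) [FiniteDimensional ℚ L] [IsGalois ℚ L]
    (bad : ℕ) (hbad : bad ≠ 0) (g : GQ) :
    ∃ (ℓ : ℕ) (A : ValuationSubring Qbar) (σ : GQ) (a b : ℕ), ℓ.Prime ∧ ¬ ℓ ∣ bad ∧
      A.LiesOverPrime ℓ ∧ A.IsFrobeniusAt σ ℓ ∧
      (∀ x ∈ L, (σ ^ a) x = g x) ∧ (∀ x ∈ L, (g ^ b) x = σ x) := by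
  obtain ⟨ℓ, A, σ, a, b, hℓ, hT, h⟩ := weak_chebotarev_finset L bad.primeFactors g
  exact ⟨ℓ, A, σ, a, b, hℓ, fun hd => hT (Nat.mem_primeFactors.mpr ⟨hℓ, hd, hbad⟩), h⟩

end Fermat.Agent.GAL.Cheb
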