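import Fermat.Agent.GAL.Cheb.Defs
import Fermat.Agent.S14.An.EulerCor

/-! # CHEB-1 : analytic input -/

set_option autoImplicit false
set_option linter.unusedSectionVars false

namespace Fermat.Agent.GAL.Cheb

open NumberField IsDedekindDomain Fermat.Agent.S14.An
open scoped Pointwise Classical

theorem Lam_unbounded (C : ℝ) : ∃ s : ℝ, 1 < s ∧ s ≤ 2 ∧ C < Lam s := by
  refine ⟨1 + Real.exp (-(|C| + 1)), by linarith [Real.exp_pos (-(|C| + 1))], ?_, ?_⟩
  · have : Real.exp (-(|C| + 1)) ≤ 1 := Real.exp_le_one_iff.2 (by linarith [abs_nonneg C])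
    linarith
  · unfold Lam
    rw [add_sub_cancel_left, one_div, ← Real.exp_neg, Real.log_exp, neg_neg]
    linarith [le_abs_self C]

namespace Analytic

variable {K : Type*} [Field K] [NumberField K]

/-- at most `[K:ℚ]` primes above a rational prime (plain `Finset` version). -/
theorem fiber_card_le (u : Finset (HeightOneSpectrum (𝓞 K))) (b : ℕ) :
    (u.filter (fun v => degUnder v = b)).card ≤ Module.finrank ℚ K := by
  have h := degUnder_fiber_card_le (S := (Set.univ : Set (HeightOneSpectrum (𝓞 K))))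
    (u.subtype (fun v => v ∈ (Set.univ : Set (HeightOneSpectrum (𝓞 K))))) b
  refine le_trans ?_ h
  refine Finset.card_le_card_of_injOn (fun v => ⟨v, Set.mem_univ v⟩) ?_ ?_
  · intro v hv
    have hv' := Finset.mem_filter.mp (Finset.mem_coe.mp hv)
    simp only [Finset.coe_filter, Finset.mem_subtype, Set.mem_ofPred_eq]
    exact hv'
  · intro v _ w _ h
    simpa using h

theorem sum_degUnder_le (f : ℕ → ℝ) (hf : ∀ n, 0 ≤ f n) (hs : Summable f)
    (u : Finset (HeightOneSpectrum (𝓞 K))) :
    ∑ v ∈ u, f (degUnder v) ≤ (Module.finrank ℚ K : ℝ) * ∑' n, f n := by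
  rw [Finset.sum_comp f (fun v : HeightOneSpectrum (𝓞 K) => degUnder v)]
  have h6 : ∀ b ∈ u.image (fun v : HeightOneSpectrum (𝓞 K) => degUnder v),
      (u.filter (fun v : HeightOneSpectrum (𝓞 K) => degUnder v = b)).card • f b ≤
        (Module.finrank ℚ K : ℝ) * f b := by
    intro b _
    rw [nsmul_eq_mul]
    refine mul_le_mul_of_nonneg_right ?_ (hf b)
    exact_mod_cast fiber_card_le u b
  refine (Finset.sum_le_sum h6).trans ?_
  rw [← Finset.mul_sum]
  refine mul_le_mul_of_nonneg_left ?_ (Nat.cast_nonneg _)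
  exact hs.sum_le_tsum _ (fun n _ => hf n)

end Analytic

open Analytic

theorem summable_wt (K : Type*) [Field K] [NumberField K] (S : Finset ℕ) {s : ℝ} (hs : 1 < s) :
    Summable (fun v : HeightOneSpectrum (𝓞 K) => wt S v s) := by
  have hsum : Summable (fun n : ℕ => (n : ℝ) ^ (-s)) := Real.summable_nat_rpow.2 (by linarith)
  refine summable_of_sum_le (c := (Module.finrank ℚ K : ℝ) * ∑' n : ℕ, (n : ℝ) ^ (-s))
    (fun v => wt_nonneg S v s) (fun u => ?_)
  refine le_trans (Finset.sum_le_sum (fun v _ => ?_))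
    (sum_degUnder_le (fun n : ℕ => (n : ℝ) ^ (-s))
      (fun n => Real.rpow_nonneg (Nat.cast_nonneg _) _) hsum u)
  unfold wt
  split_ifs
  · exact Real.rpow_nonneg (Nat.cast_nonneg _) _
  · exact le_rfl

theorem primeSum_prime_norm (F : Type*) [Field F] [NumberField F] :
    BddDiff (fun s => primeSum {w : HeightOneSpectrum (𝓞 F) | (Ideal.absNorm w.asIdeal).Prime} s)
      Lam := by
  obtain ⟨c, C, hc, hC, hb⟩ := idealZeta_bounds F
  obtain ⟨C2, h2⟩ := log_idealZeta_le F
  obtain ⟨C3, h3⟩ := primeSum_not_prime_norm_le F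
  refine ⟨|Real.log c| + |Real.log C| + |C2| + |C3|, fun s hs1 hs2 => ?_⟩
  have hs0 : 0 < s - 1 := by linarith
  obtain ⟨hb1, hb2⟩ := hb s hs1 hs2
  have hz : 0 < idealZeta F s := lt_of_lt_of_le (div_pos hc hs0) hb1
  have hl1 : Real.log c + Lam s ≤ Real.log (idealZeta F s) := by
    unfold Lam
    rw [← Real.log_mul hc.ne' (one_div_pos.2 hs0).ne', mul_one_div]
    exact Real.log_le_log (div_pos hc hs0) hb1
  have hl2 : Real.log (idealZeta F s) ≤ Real.log C + Lam s := by
    unfold Lam
    rw [← Real.log_mul hC.ne' (one_div_pos.2 hs0).ne', mul_one_div]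
    exact Real.log_le_log hz hb2
  have hsm : Summable fun v : HeightOneSpectrum (𝓞 F) => nrm F s v.asIdeal :=
    EP2.summable_nrm_prime (EP2.summableNrm F) hs1
  have hsplit : primeSum {w : HeightOneSpectrum (𝓞 F) | (Ideal.absNorm w.asIdeal).Prime} s
      + primeSum {w : HeightOneSpectrum (𝓞 F) | ¬ (Ideal.absNorm w.asIdeal).Prime} s
      = primeSum (Set.univ : Set (HeightOneSpectrum (𝓞 F))) s := by
    rw [EP2.primeSum_univ]
    exact hsm.tsum_subtype_add_tsum_subtype_compl
      {w : HeightOneSpectrum (𝓞 F) | (Ideal.absNorm w.asIdeal).Prime}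
  have hnn : 0 ≤ primeSum {w : HeightOneSpectrum (𝓞 F) | ¬ (Ideal.absNorm w.asIdeal).Prime} s :=
    tsum_nonneg fun v => Real.rpow_nonneg (Nat.cast_nonneg _) _
  have h4 := h2 s hs1 hs2
  have h5 := primeSum_le_log_idealZeta (Set.univ : Set (HeightOneSpectrum (𝓞 F))) hs1
  have h6 := h3 s hs1
  rw [abs_le]
  constructor
  · linarith [neg_abs_le (Real.log c), abs_nonneg (Real.log C), le_abs_self C2, le_abs_self C3]
  · linarith [le_abs_self (Real.log C), abs_nonneg (Real.log c), abs_nonneg C2, abs_nonneg C3]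

namespace Analytic

variable {K : Type*} [Field K] [NumberField K]

/-- a prime of prime norm has norm `degUnder`. -/
theorem absNorm_eq_degUnder (v : HeightOneSpectrum (𝓞 K)) (hv : (Ideal.absNorm v.asIdeal).Prime) :
    Ideal.absNorm v.asIdeal = degUnder v := by
  have := degUnder_liesOver v
  have h := Ideal.absNorm_eq_pow_inertiaDeg' (p := degUnder v) v.asIdeal (degUnder_prime v)
  rw [h] at hv ⊢
  have h1 := (Nat.Prime.eq_one_of_pow hv)
  rw [h1, pow_one]

end Analytic

theorem tsum_wt_prime_norm (F : Type*) [Field F] [NumberField F] (S : Finset ℕ) :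
    BddDiff (fun s => ∑' w : HeightOneSpectrum (𝓞 F),
      if (Ideal.absNorm w.asIdeal).Prime then wt S w s else 0) Lam := by
  refine BddDiff.trans ?_ (primeSum_prime_norm F)
  refine ⟨(Module.finrank ℚ F : ℝ) * ∑' n : ℕ, (if n ∈ S then (1 : ℝ) else 0), fun s hs1 hs2 => ?_⟩
  have hsm : Summable fun v : HeightOneSpectrum (𝓞 F) => nrm F s v.asIdeal :=
    EP2.summable_nrm_prime (EP2.summableNrm F) hs1
  set P : HeightOneSpectrum (𝓞 F) → Prop := fun w => (Ideal.absNorm w.asIdeal).Prime with hP
  set g : HeightOneSpectrum (𝓞 F) → ℝ := fun w => if P w then wt S w s else 0 with hg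
  set h : HeightOneSpectrum (𝓞 F) → ℝ := fun w => if P w then nrm F s w.asIdeal else 0 with hh
  set e : HeightOneSpectrum (𝓞 F) → ℝ := fun w => if degUnder w ∈ S then h w else 0 with he
  have hnn : ∀ w : HeightOneSpectrum (𝓞 F), 0 ≤ nrm F s w.asIdeal := fun w => Real.rpow_nonneg (Nat.cast_nonneg _) _
  have hh0 : ∀ w, 0 ≤ h w := fun w => by
    simp only [hh]; split_ifs
    · exact hnn w
    · exact le_rfl
  have hhle : ∀ w : HeightOneSpectrum (𝓞 F), h w ≤ nrm F s w.asIdeal := fun w => by
    simp only [hh]; split_ifs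
    · exact le_rfl
    · exact hnn w
  have hhs : Summable h := Summable.of_nonneg_of_le hh0 hhle hsm
  have he0 : ∀ w, 0 ≤ e w := fun w => by
    simp only [he]; split_ifs
    · exact hh0 w
    · exact le_rfl
  have hele : ∀ w, e w ≤ h w := fun w => by
    simp only [he]; split_ifs
    · exact le_rfl
    · exact hh0 w
  have hes : Summable e := Summable.of_nonneg_of_le he0 hele hhs
  have hge : ∀ w, g w = h w - e w := fun w => by
    simp only [hg, hh, he]
    by_cases hw : P w
    · have h1 : Ideal.absNorm w.asIdeal = degUnder w := absNorm_eq_degUnder w hw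
      simp only [hw, if_true, wt, nrm, h1]
      split_ifs <;> simp
    · simp [hw]
  have hprime : primeSum {w : HeightOneSpectrum (𝓞 F) | (Ideal.absNorm w.asIdeal).Prime} s
      = ∑' w, h w := by
    unfold primeSum
    rw [tsum_subtype {w : HeightOneSpectrum (𝓞 F) | (Ideal.absNorm w.asIdeal).Prime}
      (fun w : HeightOneSpectrum (𝓞 F) => nrm F s w.asIdeal)]
    refine tsum_congr fun w => ?_
    simp only [hh, hP, Set.indicator_apply, Set.mem_ofPred_eq]
  have hgsum : ∑' w, g w = ∑' w, h w - ∑' w, e w := by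
    rw [← hhs.tsum_sub hes]
    exact tsum_congr hge
  have hfin : Summable (fun n : ℕ => if n ∈ S then (1 : ℝ) else 0) :=
    summable_of_ne_finset_zero (s := S) (fun n hn => by simp [hn])
  have hebound : ∑' w, e w ≤ (Module.finrank ℚ F : ℝ) * ∑' n : ℕ, (if n ∈ S then (1 : ℝ) else 0) := by
    refine Real.tsum_le_of_sum_le he0 (fun u => ?_)
    refine le_trans (Finset.sum_le_sum (fun v _ => ?_))
      (sum_degUnder_le (fun n : ℕ => if n ∈ S then (1 : ℝ) else 0)
        (fun n => by split_ifs <;> norm_num) hfin u)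
    simp only [he]
    split_ifs with h1
    · refine (hhle v).trans ?_
      unfold nrm
      refine Real.rpow_le_one_of_one_le_of_nonpos ?_ (by linarith)
      have := EP2.two_le_absNorm_prime v
      exact_mod_cast (by omega : 1 ≤ Ideal.absNorm v.asIdeal)
    · exact le_rfl
  show |∑' w, g w - primeSum {w : HeightOneSpectrum (𝓞 F) | (Ideal.absNorm w.asIdeal).Prime} s| ≤ _
  rw [hprime, hgsum, sub_sub_cancel_left, abs_neg, abs_of_nonneg (tsum_nonneg he0)]
  exact hebound

end Fermat.Agent.GAL.Cheb
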