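import Fermat.Agent.S14.An.Degree

/-!
# GAL, block (E) = CHEB (weak Chebotarev): definitions

`Lam s = log (1/(s-1))`, `BddDiff f g` means `f = g + O(1)` on `(1,2]`,
`wt S v s = p(v)^(-s)` (and `0` if the rational prime `p(v)` under `v` lies in `S`),
`Dec v`, `Ine v` = decomposition and inertia group of a prime `v` of a Galois number field.
-/

set_option autoImplicit false

namespace Fermat.Agent.GAL.Cheb

open NumberField IsDedekindDomain Fermat.Agent.S14.An
open scoped Pointwise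

/-- `log (1/(s-1))`. -/
noncomputable def Lam (s : ℝ) : ℝ := Real.log (1 / (s - 1))

/-- `f = g + O(1)` on `(1,2]`. -/
def BddDiff (f g : ℝ → ℝ) : Prop := ∃ C : ℝ, ∀ s : ℝ, 1 < s → s ≤ 2 → |f s - g s| ≤ C

/-- the weight `p(v)^(-s)`, switched off at the primes above `S`. -/
noncomputable def wt {K : Type*} [Field K] [NumberField K] (S : Finset ℕ)
    (v : HeightOneSpectrum (𝓞 K)) (s : ℝ) : ℝ :=
  if degUnder v ∈ S then 0 else ((degUnder v : ℕ) : ℝ) ^ (-s)

/-- the decomposition group. -/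
abbrev Dec {L : Type*} [Field L] [NumberField L] (v : HeightOneSpectrum (𝓞 L)) :
    Subgroup Gal(L/ℚ) := MulAction.stabilizer Gal(L/ℚ) v.asIdeal

/-- the inertia group. -/
abbrev Ine {L : Type*} [Field L] [NumberField L] (v : HeightOneSpectrum (𝓞 L)) :
    Subgroup Gal(L/ℚ) := Ideal.inertia Gal(L/ℚ) v.asIdeal

theorem BddDiff.refl (f : ℝ → ℝ) : BddDiff f f := ⟨0, fun s _ _ => by simp⟩

theorem BddDiff.symm {f g : ℝ → ℝ} (h : BddDiff f g) : BddDiff g f := by
  obtain ⟨C, hC⟩ := h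
  exact ⟨C, fun s h1 h2 => by rw [abs_sub_comm]; exact hC s h1 h2⟩

theorem BddDiff.trans {f g h : ℝ → ℝ} (h1 : BddDiff f g) (h2 : BddDiff g h) : BddDiff f h := by
  obtain ⟨C, hC⟩ := h1
  obtain ⟨C', hC'⟩ := h2
  exact ⟨C + C', fun s hs1 hs2 =>
    (abs_sub_le (f s) (g s) (h s)).trans (add_le_add (hC s hs1 hs2) (hC' s hs1 hs2))⟩

theorem BddDiff.add {f g f' g' : ℝ → ℝ} (h1 : BddDiff f g) (h2 : BddDiff f' g') :
    BddDiff (fun s => f s + f' s) (fun s => g s + g' s) := by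
  obtain ⟨C, hC⟩ := h1
  obtain ⟨C', hC'⟩ := h2
  refine ⟨C + C', fun s hs1 hs2 => ?_⟩
  have : f s + f' s - (g s + g' s) = (f s - g s) + (f' s - g' s) := by ring
  rw [this]
  exact (abs_add_le _ _).trans (add_le_add (hC s hs1 hs2) (hC' s hs1 hs2))

theorem BddDiff.sub {f g f' g' : ℝ → ℝ} (h1 : BddDiff f g) (h2 : BddDiff f' g') :
    BddDiff (fun s => f s - f' s) (fun s => g s - g' s) := by
  obtain ⟨C, hC⟩ := h1
  obtain ⟨C', hC'⟩ := h2
  refine ⟨C + C', fun s hs1 hs2 => ?_⟩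
  have : f s - f' s - (g s - g' s) = (f s - g s) - (f' s - g' s) := by ring
  rw [this]
  exact (abs_sub _ _).trans (add_le_add (hC s hs1 hs2) (hC' s hs1 hs2))

theorem BddDiff.const_mul {f g : ℝ → ℝ} (c : ℝ) (h : BddDiff f g) :
    BddDiff (fun s => c * f s) (fun s => c * g s) := by
  obtain ⟨C, hC⟩ := h
  refine ⟨|c| * C, fun s hs1 hs2 => ?_⟩
  rw [← mul_sub, abs_mul]
  exact mul_le_mul_of_nonneg_left (hC s hs1 hs2) (abs_nonneg c)

theorem BddDiff.sum {ι : Type*} (t : Finset ι) {f g : ι → ℝ → ℝ}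
    (h : ∀ i ∈ t, BddDiff (f i) (g i)) :
    BddDiff (fun s => ∑ i ∈ t, f i s) (fun s => ∑ i ∈ t, g i s) := by
  classical
  induction t using Finset.induction_on with
  | empty => simpa using BddDiff.refl (fun _ => (0 : ℝ))
  | insert a t ha ih =>
    have h1 := (h a (Finset.mem_insert_self a t)).add
      (ih fun i hi => h i (Finset.mem_insert_of_mem hi))
    simpa [Finset.sum_insert ha] using h1

theorem BddDiff.congr {f g f' g' : ℝ → ℝ} (h : BddDiff f g)
    (hf : ∀ s : ℝ, 1 < s → s ≤ 2 → f' s = f s) (hg : ∀ s : ℝ, 1 < s → s ≤ 2 → g' s = g s) :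
    BddDiff f' g' := by
  obtain ⟨C, hC⟩ := h
  exact ⟨C, fun s hs1 hs2 => by rw [hf s hs1 hs2, hg s hs1 hs2]; exact hC s hs1 hs2⟩

theorem wt_nonneg {K : Type*} [Field K] [NumberField K] (S : Finset ℕ)
    (v : HeightOneSpectrum (𝓞 K)) (s : ℝ) : 0 ≤ wt S v s := by
  unfold wt
  split_ifs
  · exact le_rfl
  · exact Real.rpow_nonneg (Nat.cast_nonneg _) _

theorem wt_le_one {K : Type*} [Field K] [NumberField K] (S : Finset ℕ)
    (v : HeightOneSpectrum (𝓞 K)) {s : ℝ} (hs : 0 ≤ s) : wt S v s ≤ 1 := by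
  unfold wt
  split_ifs
  · exact zero_le_one
  · refine Real.rpow_le_one_of_one_le_of_nonpos ?_ (by linarith)
    exact_mod_cast (degUnder_prime v).one_le

end Fermat.Agent.GAL.Cheb
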