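import Fermat.Agent.GAL.Cheb.Defs
import Fermat.Agent.S14.An.EulerCor
import Fermat.Agent.S14.An.Zeta

/-!
# CHEB (E1): `∑_{w, N(w) prime} N(w)^(-s) = log (1/(s-1)) + O(1)` for every number field
-/

set_option autoImplicit false
set_option linter.unusedSectionVars false

namespace Fermat.Agent.GAL.Cheb

open NumberField IsDedekindDomain Fermat.Agent.S14.An

variable (K : Type*) [Field K] [NumberField K]

/-- the set of primes of degree one (i.e. of prime norm). -/
def degOne : Set (HeightOneSpectrum (𝓞 K)) := {v | (Ideal.absNorm v.asIdeal).Prime}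

theorem summable_nrm_primes {s : ℝ} (hs : 1 < s) :
    Summable fun v : HeightOneSpectrum (𝓞 K) => nrm K s v.asIdeal :=
  EP2.summable_nrm_prime (EP2.summableNrm K) hs

/-- `log ζ_K(s) = log (1/(s-1)) + O(1)`. -/
theorem log_idealZeta_bddDiff : BddDiff (fun s => Real.log (idealZeta K s)) Lam := by
  obtain ⟨c, C, hc, hC, h⟩ := idealZeta_bounds K
  refine ⟨max |Real.log c| |Real.log C|, fun s hs1 hs2 => ?_⟩
  obtain ⟨h1, h2⟩ := h s hs1 hs2
  have hs0 : 0 < s - 1 := by linarith
  have hinv : 0 < 1 / (s - 1) := by positivity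
  have e1 : Real.log (c / (s - 1)) = Real.log c + Lam s := by
    unfold Lam
    rw [div_eq_mul_one_div, Real.log_mul hc.ne' hinv.ne']
  have e2 : Real.log (C / (s - 1)) = Real.log C + Lam s := by
    unfold Lam
    rw [div_eq_mul_one_div, Real.log_mul hC.ne' hinv.ne']
  have hcpos : 0 < c / (s - 1) := by positivity
  have l1 : Real.log c + Lam s ≤ Real.log (idealZeta K s) := by
    rw [← e1]; exact Real.log_le_log hcpos h1
  have l2 : Real.log (idealZeta K s) ≤ Real.log C + Lam s := by
    rw [← e2]; exact Real.log_le_log (hcpos.trans_le h1) h2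
  rw [abs_le]
  constructor
  · have := neg_abs_le (Real.log c)
    have := le_max_left |Real.log c| |Real.log C|
    linarith
  · have := le_abs_self (Real.log C)
    have := le_max_right |Real.log c| |Real.log C|
    linarith

theorem primeSum_add_compl (S : Set (HeightOneSpectrum (𝓞 K))) {s : ℝ} (hs : 1 < s) :
    primeSum S s + primeSum Sᶜ s = primeSum (Set.univ : Set (HeightOneSpectrum (𝓞 K))) s := by
  rw [EP2.primeSum_univ]
  exact (summable_nrm_primes K hs).tsum_subtype_add_tsum_subtype_compl S

/-- **(E1)** the primes of degree one carry the whole pole. -/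
theorem primeSum_degOne : BddDiff (fun s => primeSum (degOne K) s) Lam := by
  obtain ⟨C0, h0⟩ := log_idealZeta_bddDiff K
  obtain ⟨C1, h1⟩ := log_idealZeta_le K
  obtain ⟨C2, h2⟩ := primeSum_not_prime_norm_le K
  refine ⟨|C0| + |C1| + |C2|, fun s hs1 hs2 => ?_⟩
  have a0 := abs_le.mp (h0 s hs1 hs2)
  have a1 := h1 s hs1 hs2
  have a2 := h2 s hs1
  have a3 := primeSum_le_log_idealZeta (degOne K) hs1
  have a4 := primeSum_add_compl K (degOne K) hs1
  have a5 : primeSum (degOne K)ᶜ s ≤ C2 := a2
  have b0 := le_abs_self C0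
  have b1 := le_abs_self C1
  have b2 := le_abs_self C2
  have c0 := abs_nonneg C0
  have c1 := abs_nonneg C1
  have c2 := abs_nonneg C2
  simp only at a0
  rw [abs_le]
  constructor <;> linarith [a0.1, a0.2]

/-- only finitely many primes lie above a finite set of rational primes. -/
theorem finite_degUnder_mem (S : Finset ℕ) :
    {v : HeightOneSpectrum (𝓞 K) | degUnder v ∈ S}.Finite := by
  classical
  have h : {v : HeightOneSpectrum (𝓞 K) | degUnder v ∈ S} ⊆
      ⋃ p ∈ S.filter Nat.Prime,
        {v : HeightOneSpectrum (𝓞 K) | v.asIdeal ∣ Ideal.span {((p : ℕ) : 𝓞 K)}} := by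
    intro v hv
    simp only [Set.mem_iUnion, Set.mem_ofPred_eq, exists_prop]
    refine ⟨degUnder v, Finset.mem_filter.mpr ⟨hv, degUnder_prime v⟩, ?_⟩
    rw [Ideal.dvd_iff_le, Ideal.span_singleton_le_iff_mem]
    have h1 := degUnder_liesOver v
    have h2 : ((degUnder v : ℕ) : ℤ) ∈ Ideal.span {((degUnder v : ℕ) : ℤ)} :=
      Ideal.mem_span_singleton_self _
    rw [h1.over, Ideal.mem_comap] at h2
    simpa using h2
  refine Set.Finite.subset (Set.Finite.biUnion (Finset.finite_toSet _) fun p hp => ?_) h
  apply Ideal.finite_factors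
  have hp' : p.Prime := (Finset.mem_filter.mp hp).2
  simpa using hp'.ne_zero

theorem nrm_eq_of_degOne {v : HeightOneSpectrum (𝓞 K)} (hv : v ∈ degOne K) (s : ℝ) :
    nrm K s v.asIdeal = ((degUnder v : ℕ) : ℝ) ^ (-s) := by
  have := degUnder_liesOver v
  have h := Ideal.absNorm_eq_pow_inertiaDeg' (p := degUnder v) v.asIdeal (degUnder_prime v)
  have hv' : (Ideal.absNorm v.asIdeal).Prime := hv
  have h2 : Ideal.absNorm v.asIdeal = degUnder v := by
    rw [h] at hv' ⊢
    rw [Nat.Prime.eq_one_of_pow hv', pow_one]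
  unfold nrm
  rw [h2]

/-- **(E1), weighted form**: the same with the primes above a finite set `S` switched off. -/
theorem tsum_wt_degOne (S : Finset ℕ) :
    BddDiff (fun s => ∑' v : degOne K, wt S (v : HeightOneSpectrum (𝓞 K)) s) Lam := by
  classical
  refine BddDiff.trans ?_ (primeSum_degOne K)
  have hfin := finite_degUnder_mem K S
  refine ⟨(hfin.toFinset.card : ℝ), fun s hs1 _ => ?_⟩
  have hsum : Summable fun v : degOne K => nrm K s (v : HeightOneSpectrum (𝓞 K)).asIdeal :=
    (summable_nrm_primes K hs1).subtype _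
  -- the difference is supported on a finite set
  have hdiff : ∀ v : degOne K, nrm K s (v : HeightOneSpectrum (𝓞 K)).asIdeal
      - wt S (v : HeightOneSpectrum (𝓞 K)) s
      = if degUnder (v : HeightOneSpectrum (𝓞 K)) ∈ S then
          nrm K s (v : HeightOneSpectrum (𝓞 K)).asIdeal else 0 := by
    intro v
    unfold wt
    split_ifs with h
    · simp
    · rw [nrm_eq_of_degOne K v.2]; simp
  have hle : ∀ v : degOne K, wt S (v : HeightOneSpectrum (𝓞 K)) s ≤
      nrm K s (v : HeightOneSpectrum (𝓞 K)).asIdeal := by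
    intro v
    have := hdiff v
    have h2 : 0 ≤ (if degUnder (v : HeightOneSpectrum (𝓞 K)) ∈ S then
          nrm K s (v : HeightOneSpectrum (𝓞 K)).asIdeal else 0) := by
      split_ifs
      · exact Real.rpow_nonneg (Nat.cast_nonneg _) _
      · exact le_rfl
    linarith
  have hsumw : Summable fun v : degOne K => wt S (v : HeightOneSpectrum (𝓞 K)) s :=
    Summable.of_nonneg_of_le (fun v => wt_nonneg S _ s) hle hsum
  have e : primeSum (degOne K) s - ∑' v : degOne K, wt S (v : HeightOneSpectrum (𝓞 K)) s
      = ∑' v : degOne K, (if degUnder (v : HeightOneSpectrum (𝓞 K)) ∈ S then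
          nrm K s (v : HeightOneSpectrum (𝓞 K)).asIdeal else 0) := by
    unfold primeSum
    rw [← hsum.tsum_sub hsumw]
    exact tsum_congr hdiff
  have hnn : 0 ≤ ∑' v : degOne K, (if degUnder (v : HeightOneSpectrum (𝓞 K)) ∈ S then
          nrm K s (v : HeightOneSpectrum (𝓞 K)).asIdeal else 0) := by
    refine tsum_nonneg fun v => ?_
    split_ifs
    · exact Real.rpow_nonneg (Nat.cast_nonneg _) _
    · exact le_rfl
  have hub : ∑' v : degOne K, (if degUnder (v : HeightOneSpectrum (𝓞 K)) ∈ S then
          nrm K s (v : HeightOneSpectrum (𝓞 K)).asIdeal else 0) ≤ (hfin.toFinset.card : ℝ) := by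
    refine Real.tsum_le_of_sum_le (fun v => ?_) (fun u => ?_)
    · split_ifs
      · exact Real.rpow_nonneg (Nat.cast_nonneg _) _
      · exact le_rfl
    · rw [← Finset.sum_filter]
      have h1 : ∀ v ∈ u.filter (fun v : degOne K => degUnder (v : HeightOneSpectrum (𝓞 K)) ∈ S),
          nrm K s (v : HeightOneSpectrum (𝓞 K)).asIdeal ≤ 1 := by
        intro v _
        have := EP2.nrm_prime_le_half hs1 (v : HeightOneSpectrum (𝓞 K))
        linarith
      refine (Finset.sum_le_card_nsmul _ _ 1 h1).trans ?_
      rw [nsmul_eq_mul, mul_one]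
      have : (u.filter (fun v : degOne K => degUnder (v : HeightOneSpectrum (𝓞 K)) ∈ S)).card ≤
          hfin.toFinset.card := by
        refine Finset.card_le_card_of_injOn (fun v => (v : HeightOneSpectrum (𝓞 K))) ?_ ?_
        · intro v hv
          have := (Finset.mem_filter.mp (Finset.mem_coe.mp hv)).2
          simpa using this
        · intro v _ w _ h
          exact Subtype.ext h
      exact_mod_cast this
  rw [abs_sub_comm, e, abs_of_nonneg hnn]
  exact hub

end Fermat.Agent.GAL.Cheb
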