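import Fermat.Agent.GAL.Cheb.Defs

/-!
# CHEB (E3): only finitely many primes have a nontrivial inertia group
-/

set_option autoImplicit false
set_option linter.unusedSectionVars false

namespace Fermat.Agent.GAL.Cheb

open NumberField IsDedekindDomain Fermat.Agent.S14.An
open scoped Pointwise

variable (L : Type*) [Field L] [NumberField L]

theorem exists_smul_ne {τ : Gal(L/ℚ)} (hτ : τ ≠ 1) : ∃ x : 𝓞 L, τ • x ≠ x := by
  by_contra h
  push Not at h
  apply hτ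
  ext y
  obtain ⟨a, b, hb, rfl⟩ := IsFractionRing.div_surjective (A := 𝓞 L) y
  have ha := congrArg (algebraMap (𝓞 L) L) (h a)
  have hb' := congrArg (algebraMap (𝓞 L) L) (h b)
  rw [map_div₀]
  simp only [AlgEquiv.one_apply]
  have ea : τ (algebraMap (𝓞 L) L a) = algebraMap (𝓞 L) L (τ • a) := rfl
  have eb : τ (algebraMap (𝓞 L) L b) = algebraMap (𝓞 L) L (τ • b) := rfl
  rw [ea, eb, ha, hb']

/-- **(E3)** -/
theorem finite_setOf_ine_ne_bot : {v : HeightOneSpectrum (𝓞 L) | Ine v ≠ ⊥}.Finite := by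
  classical
  choose! x hx using fun (τ : Gal(L/ℚ)) (hτ : τ ≠ 1) => exists_smul_ne L hτ
  have h : {v : HeightOneSpectrum (𝓞 L) | Ine v ≠ ⊥} ⊆
      ⋃ τ ∈ {τ : Gal(L/ℚ) | τ ≠ 1},
        {v : HeightOneSpectrum (𝓞 L) | v.asIdeal ∣ Ideal.span {τ • x τ - x τ}} := by
    intro v hv
    have hv' : Ine v ≠ ⊥ := hv
    obtain ⟨τ, hτ1⟩ := (Subgroup.ne_bot_iff_exists_ne_one).mp hv'
    have hτ1' : (τ : Gal(L/ℚ)) ≠ 1 := fun h => hτ1 (Subtype.ext h)
    simp only [Set.mem_iUnion, exists_prop]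
    refine ⟨τ, hτ1', ?_⟩
    show v.asIdeal ∣ _
    rw [Ideal.dvd_iff_le, Ideal.span_singleton_le_iff_mem]
    exact τ.2 (x τ)
  refine Set.Finite.subset (Set.Finite.biUnion (Set.toFinite _) fun τ hτ => ?_) h
  apply Ideal.finite_factors
  intro h0
  rw [Ideal.zero_eq_bot, Ideal.span_singleton_eq_bot, sub_eq_zero] at h0
  exact hx τ hτ h0

end Fermat.Agent.GAL.Cheb
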