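import Fermat.Agent.GAL.Cheb.Defs

/-!
# CHEB: the fixed field of a subgroup and the map `v ↦ v ∩ 𝓞 (L^H)`
-/

set_option autoImplicit false
set_option linter.unusedSectionVars false

namespace Fermat.Agent.GAL.Cheb

open NumberField IsDedekindDomain Fermat.Agent.S14.An
open scoped Pointwise

variable {L : Type*} [Field L] [NumberField L] [IsGalois ℚ L] (H : Subgroup Gal(L/ℚ))

/-- the fixed field of `H`. -/
abbrev FF : IntermediateField ℚ L := FixedPoints.intermediateField H

/-- `H` is the Galois group of `𝓞 L` over `𝓞 (L^H)`. -/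
theorem isGaloisGroup_FF : IsGaloisGroup H (𝓞 (FF H)) (𝓞 L) :=
  IsGaloisGroup.of_isFractionRing H (𝓞 (FF H)) (𝓞 L) (FF H) L

/-- the prime of the fixed field below `v`. -/
noncomputable def below (v : HeightOneSpectrum (𝓞 L)) : HeightOneSpectrum (𝓞 (FF H)) :=
  ⟨v.asIdeal.under (𝓞 (FF H)), inferInstance, Ideal.under_ne_bot _ v.ne_bot⟩

@[simp] theorem below_asIdeal (v : HeightOneSpectrum (𝓞 L)) :
    (below H v).asIdeal = v.asIdeal.under (𝓞 (FF H)) := rfl

instance below_liesOver (v : HeightOneSpectrum (𝓞 L)) :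
    v.asIdeal.LiesOver (below H v).asIdeal := ⟨rfl⟩

end Fermat.Agent.GAL.Cheb
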