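import Fermat.Agent.GAL.Cheb.FiberDefs

/-! # CHEB-4a : local facts about `v ↦ below H v` -/

set_option autoImplicit false
set_option linter.unusedSectionVars false

namespace Fermat.Agent.GAL.Cheb

open NumberField IsDedekindDomain Fermat.Agent.S14.An
open scoped Pointwise Classical

variable {L : Type*} [Field L] [NumberField L] [IsGalois ℚ L] (H : Subgroup Gal(L/ℚ))

theorem degUnder_below (v : HeightOneSpectrum (𝓞 L)) : degUnder (below H v) = degUnder v := by
  unfold degUnder
  rw [below_asIdeal, Ideal.under_under]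

theorem absNorm_eq_degUnder_pow {K : Type*} [Field K] [NumberField K]
    (w : HeightOneSpectrum (𝓞 K)) :
    Ideal.absNorm w.asIdeal = degUnder w ^ w.asIdeal.inertiaDeg ℤ := by
  have := degUnder_liesOver w
  exact (Ideal.pow_inertiaDeg (degUnder w) w.asIdeal).symm

theorem absNorm_prime_iff {K : Type*} [Field K] [NumberField K] (w : HeightOneSpectrum (𝓞 K)) :
    (Ideal.absNorm w.asIdeal).Prime ↔ w.asIdeal.inertiaDeg ℤ = 1 := by
  rw [absNorm_eq_degUnder_pow]
  constructor
  · intro h
    exact Nat.Prime.eq_one_of_pow h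
  · intro h
    rw [h, pow_one]
    exact degUnder_prime w

theorem degUnder_eq_absNorm {K : Type*} [Field K] [NumberField K] (w : HeightOneSpectrum (𝓞 K))
    (hw : (Ideal.absNorm w.asIdeal).Prime) : degUnder w = Ideal.absNorm w.asIdeal := by
  rw [absNorm_eq_degUnder_pow, (absNorm_prime_iff w).mp hw, pow_one]

theorem stabilizer_eq_subgroupOf (v : HeightOneSpectrum (𝓞 L)) :
    MulAction.stabilizer H v.asIdeal = (Dec v).subgroupOf H := by
  ext h
  simp only [MulAction.mem_stabilizer_iff, Subgroup.mem_subgroupOf]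
  rfl

theorem card_stabilizer_of_le (v : HeightOneSpectrum (𝓞 L)) (hv : Dec v ≤ H) :
    Nat.card (MulAction.stabilizer H v.asIdeal) = Nat.card (Dec v) := by
  rw [stabilizer_eq_subgroupOf]
  exact Nat.card_congr (Subgroup.subgroupOfEquivOfLe hv).toEquiv

theorem card_dec (v : HeightOneSpectrum (𝓞 L)) (hv : Ine v = ⊥) :
    Nat.card (Dec v) = v.asIdeal.inertiaDeg ℤ := by
  have := degUnder_liesOver v
  have hp : (Ideal.span {((degUnder v : ℕ) : ℤ)}).IsPrime := by
    have : Fact (degUnder v).Prime := ⟨degUnder_prime v⟩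
    exact (Int.ideal_span_isMaximal_of_prime (degUnder v)).isPrime
  have h := Ideal.card_stabilizer_eq_card_inertia_mul_finrank (G := Gal(L/ℚ))
    (Ideal.span {((degUnder v : ℕ) : ℤ)}) v.asIdeal
  rw [h]
  have : Nat.card (Ideal.inertia Gal(L/ℚ) v.asIdeal) = 1 := by
    change Nat.card (Ine v) = 1
    rw [hv]; simp
  rw [this, one_mul]

theorem card_stabilizer (v : HeightOneSpectrum (𝓞 L)) (hv : Ine v = ⊥) :
    Nat.card (MulAction.stabilizer H v.asIdeal) = v.asIdeal.inertiaDeg (𝓞 (FF H)) := by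
  have := isGaloisGroup_FF H
  have h := Ideal.card_stabilizer_eq_card_inertia_mul_finrank (G := H)
    (below H v).asIdeal v.asIdeal
  refine Eq.trans h ?_
  have : Nat.card (Ideal.inertia H v.asIdeal) = 1 := by
    rw [Nat.card_eq_one_iff_unique]
    refine ⟨⟨fun a b => ?_⟩, ⟨1⟩⟩
    have key : ∀ a : Ideal.inertia H v.asIdeal, a = 1 := by
      intro a
      have ha : ((a : H) : Gal(L/ℚ)) ∈ Ine v := fun x => a.2 x
      rw [hv, Subgroup.mem_bot] at ha
      exact Subtype.ext (Subtype.ext ha)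
    rw [key a, key b]
  rw [this, one_mul]

theorem dec_le_iff (v : HeightOneSpectrum (𝓞 L)) (hv : Ine v = ⊥) :
    Dec v ≤ H ↔ (Ideal.absNorm (below H v).asIdeal).Prime := by
  rw [absNorm_prime_iff]
  have h1 := card_dec v hv
  have h2 := card_stabilizer H v hv
  have h3 : v.asIdeal.inertiaDeg ℤ =
      (below H v).asIdeal.inertiaDeg ℤ * v.asIdeal.inertiaDeg (𝓞 (FF H)) :=
    Ideal.inertiaDeg_tower (below H v).asIdeal v.asIdeal
  have hpos : 0 < v.asIdeal.inertiaDeg (𝓞 (FF H)) := Ideal.inertiaDeg_pos _ _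
  constructor
  · intro hle
    have h4 := card_stabilizer_of_le H v hle
    rw [h1, h2, h3] at h4
    have : (below H v).asIdeal.inertiaDeg ℤ * v.asIdeal.inertiaDeg (𝓞 (FF H)) =
        1 * v.asIdeal.inertiaDeg (𝓞 (FF H)) := by rw [one_mul]; exact h4.symm
    exact Nat.eq_of_mul_eq_mul_right hpos this
  · intro hf
    rw [hf, one_mul, ← h1, ← h2, stabilizer_eq_subgroupOf] at h3
    -- card (Dec v) = card ((Dec v).subgroupOf H)
    have h5 : Nat.card ((Dec v).subgroupOf H) = Nat.card ((Dec v ⊓ H : Subgroup Gal(L/ℚ))) := by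
      rw [← Subgroup.inf_subgroupOf_right]
      exact Nat.card_congr (Subgroup.subgroupOfEquivOfLe inf_le_right).toEquiv
    rw [h5] at h3
    have h6 : (Dec v ⊓ H : Subgroup Gal(L/ℚ)) = Dec v :=
      Subgroup.eq_of_le_of_card_ge inf_le_left h3.le
    rw [← h6]
    exact inf_le_right

end Fermat.Agent.GAL.Cheb
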