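import Fermat.Agent.GAL.Cheb.FiberDefs

/-! # CHEB-4b : orbit-stabiliser on the fibres of `below H` -/

set_option autoImplicit false
set_option linter.unusedSectionVars false

namespace Fermat.Agent.GAL.Cheb

open NumberField IsDedekindDomain Fermat.Agent.S14.An
open scoped Pointwise Classical

variable {L : Type*} [Field L] [NumberField L] [IsGalois ℚ L] (H : Subgroup Gal(L/ℚ))

/-- the fibre of `below H` over `w` is the set of primes of `𝓞 L` over `w`. -/
noncomputable def fiberEquiv (w : HeightOneSpectrum (𝓞 (FF H))) :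
    ((below H) ⁻¹' {w}) ≃ w.asIdeal.primesOver (𝓞 L) where
  toFun v := ⟨(v : HeightOneSpectrum (𝓞 L)).asIdeal, (v : HeightOneSpectrum (𝓞 L)).isPrime,
    ⟨by
      have h : below H (v : HeightOneSpectrum (𝓞 L)) = w := v.2
      exact (congrArg HeightOneSpectrum.asIdeal h).symm⟩⟩
  invFun P := ⟨⟨P.1, P.2.1, by
      have := P.2.2
      exact Ideal.ne_bot_of_liesOver_of_ne_bot w.ne_bot P.1⟩, by
      have h := P.2.2.over
      exact HeightOneSpectrum.ext h.symm⟩
  left_inv v := rfl
  right_inv P := rfl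

theorem finite_primesOver_FF (w : HeightOneSpectrum (𝓞 (FF H))) :
    Finite (w.asIdeal.primesOver (𝓞 L)) := by
  have : w.asIdeal.IsMaximal := w.isMaximal
  exact (IsDedekindDomain.primesOver_finite w.asIdeal (𝓞 L)).to_subtype

theorem finite_fiber (w : HeightOneSpectrum (𝓞 (FF H))) : ((below H) ⁻¹' {w}).Finite := by
  have := finite_primesOver_FF H w
  have : Finite ((below H) ⁻¹' {w}) := Finite.of_equiv _ (fiberEquiv H w).symm
  exact Set.toFinite _

theorem card_fiber_mul_card_stabilizer (w : HeightOneSpectrum (𝓞 (FF H)))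
    (v : (below H) ⁻¹' {w}) :
    Nat.card ((below H) ⁻¹' {w}) *
      Nat.card (MulAction.stabilizer H (v : HeightOneSpectrum (𝓞 L)).asIdeal) = Nat.card H := by
  have := isGaloisGroup_FF H
  have hl : (v : HeightOneSpectrum (𝓞 L)).asIdeal.LiesOver w.asIdeal := ((fiberEquiv H w) v).2.2
  have h1 : MulAction.orbit H (v : HeightOneSpectrum (𝓞 L)).asIdeal = w.asIdeal.primesOver (𝓞 L) :=
    Algebra.IsInvariant.orbit_eq_primesOver (𝓞 (FF H)) (𝓞 L) H w.asIdeal _
  have h2 := Nat.card_congr
    (MulAction.orbitProdStabilizerEquivGroup H (v : HeightOneSpectrum (𝓞 L)).asIdeal)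
  rw [Nat.card_prod] at h2
  rw [Nat.card_congr (fiberEquiv H w), ← h2]
  congr 1
  rw [← h1]

theorem tsum_fiber_card (w : HeightOneSpectrum (𝓞 (FF H))) :
    ∑' v : (below H) ⁻¹' {w},
      (Nat.card (MulAction.stabilizer H (v : HeightOneSpectrum (𝓞 L)).asIdeal) : ℝ) =
      Nat.card H := by
  have hfin : Finite ((below H) ⁻¹' {w}) := (finite_fiber H w).to_subtype
  have : Fintype ((below H) ⁻¹' {w}) := Fintype.ofFinite _
  have hne : Nonempty ((below H) ⁻¹' {w}) := by
    have : Nonempty (w.asIdeal.primesOver (𝓞 L)) := inferInstance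
    exact (fiberEquiv H w).nonempty
  have hn : (Nat.card ((below H) ⁻¹' {w}) : ℝ) ≠ 0 := by
    exact_mod_cast (Nat.card_pos).ne'
  rw [tsum_fintype]
  have h : ∀ v : (below H) ⁻¹' {w},
      (Nat.card (MulAction.stabilizer H (v : HeightOneSpectrum (𝓞 L)).asIdeal) : ℝ) =
        (Nat.card H : ℝ) / Nat.card ((below H) ⁻¹' {w}) := by
    intro v
    rw [eq_div_iff hn, mul_comm]
    exact_mod_cast card_fiber_mul_card_stabilizer H w v
  rw [Finset.sum_congr rfl (fun v _ => h v), Finset.sum_const, Finset.card_univ, nsmul_eq_mul,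
    ← Nat.card_eq_fintype_card]
  field_simp

end Fermat.Agent.GAL.Cheb
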