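import Fermat.Agent.GAL.Cheb.Analytic
import Fermat.Agent.GAL.Cheb.FiberLocal
import Fermat.Agent.GAL.Cheb.FiberOrbit

/-! # CHEB-4c : the sum over `v` with `Dec v ≤ H` -/

set_option autoImplicit false
set_option linter.unusedSectionVars false

namespace Fermat.Agent.GAL.Cheb

open NumberField IsDedekindDomain Fermat.Agent.S14.An
open scoped Pointwise Classical

variable {L : Type*} [Field L] [NumberField L] [IsGalois ℚ L] (H : Subgroup Gal(L/ℚ))

theorem tsum_fiber (S : Finset ℕ)
    (hS : ∀ v : HeightOneSpectrum (𝓞 L), Ine v ≠ ⊥ → degUnder v ∈ S) (s : ℝ)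
    (w : HeightOneSpectrum (𝓞 (FF H))) :
    ∑' v : (below H) ⁻¹' {w},
      (if Dec (v : HeightOneSpectrum (𝓞 L)) ≤ H then
        (Nat.card (Dec (v : HeightOneSpectrum (𝓞 L))) : ℝ) * wt S (v : HeightOneSpectrum (𝓞 L)) s
        else 0)
     = (Nat.card H : ℝ) * (if (Ideal.absNorm w.asIdeal).Prime then wt S w s else 0) := by
  have hbel : ∀ v : (below H) ⁻¹' {w}, below H (v : HeightOneSpectrum (𝓞 L)) = w := fun v => v.2
  have hwt : ∀ v : (below H) ⁻¹' {w}, wt S (v : HeightOneSpectrum (𝓞 L)) s = wt S w s := by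
    intro v
    have h1 : degUnder w = degUnder (v : HeightOneSpectrum (𝓞 L)) := by
      have h2 := degUnder_below H (v : HeightOneSpectrum (𝓞 L))
      rwa [hbel v] at h2
    unfold wt
    rw [h1]
  by_cases hwS : degUnder w ∈ S
  · have h0 : wt S w s = 0 := by simp [wt, hwS]
    simp [hwt, h0]
  · have hine : ∀ v : (below H) ⁻¹' {w}, Ine (v : HeightOneSpectrum (𝓞 L)) = ⊥ := by
      intro v
      by_contra h
      apply hwS
      have h1 := hS _ h
      rwa [← degUnder_below H, hbel v] at h1
    by_cases hp : (Ideal.absNorm w.asIdeal).Prime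
    · have h2 : ∀ v : (below H) ⁻¹' {w},
          (if Dec (v : HeightOneSpectrum (𝓞 L)) ≤ H then
            (Nat.card (Dec (v : HeightOneSpectrum (𝓞 L))) : ℝ) *
              wt S (v : HeightOneSpectrum (𝓞 L)) s else 0) =
          (Nat.card (MulAction.stabilizer H (v : HeightOneSpectrum (𝓞 L)).asIdeal) : ℝ) *
            wt S w s := by
        intro v
        have hle : Dec (v : HeightOneSpectrum (𝓞 L)) ≤ H := by
          rw [dec_le_iff H _ (hine v), hbel v]
          exact hp
        rw [if_pos hle, card_stabilizer_of_le H _ hle, hwt v]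
      simp_rw [h2]
      rw [tsum_mul_right, tsum_fiber_card, if_pos hp]
    · have h2 : ∀ v : (below H) ⁻¹' {w},
          (if Dec (v : HeightOneSpectrum (𝓞 L)) ≤ H then
            (Nat.card (Dec (v : HeightOneSpectrum (𝓞 L))) : ℝ) *
              wt S (v : HeightOneSpectrum (𝓞 L)) s else 0) = 0 := by
        intro v
        have hle : ¬ Dec (v : HeightOneSpectrum (𝓞 L)) ≤ H := by
          rw [dec_le_iff H _ (hine v), hbel v]
          exact hp
        rw [if_neg hle]
      simp_rw [h2]
      rw [tsum_zero, if_neg hp, mul_zero]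

theorem fiber_sum (S : Finset ℕ)
    (hS : ∀ v : HeightOneSpectrum (𝓞 L), Ine v ≠ ⊥ → degUnder v ∈ S) :
    BddDiff (fun s => ∑' v : HeightOneSpectrum (𝓞 L),
        if Dec v ≤ H then (Nat.card (Dec v) : ℝ) * wt S v s else 0)
      (fun s => (Nat.card H : ℝ) * Lam s) := by
  have h1 := (tsum_wt_prime_norm (FF H) S).const_mul (Nat.card H : ℝ)
  refine h1.congr (fun s hs1 _ => ?_) (fun _ _ _ => rfl)
  have hf : Summable (fun v : HeightOneSpectrum (𝓞 L) =>
      if Dec v ≤ H then (Nat.card (Dec v) : ℝ) * wt S v s else 0) := by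
    refine Summable.of_nonneg_of_le (fun v => ?_) (fun v => ?_)
      ((summable_wt L S hs1).mul_left (Nat.card Gal(L/ℚ) : ℝ))
    · split_ifs
      · exact mul_nonneg (Nat.cast_nonneg _) (wt_nonneg S v s)
      · exact le_rfl
    · split_ifs
      · refine mul_le_mul_of_nonneg_right ?_ (wt_nonneg S v s)
        exact_mod_cast Subgroup.card_le_card_group (Dec v)
      · exact mul_nonneg (Nat.cast_nonneg _) (wt_nonneg S v s)
  have h2 := hf.hasSum.tsum_fiberwise (below H)
  rw [← h2.tsum_eq, ← tsum_mul_left]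
  exact tsum_congr (fun w => tsum_fiber H S hS s w)

end Fermat.Agent.GAL.Cheb
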