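import Fermat.Agent.GAL.Cheb.Transfer
import Fermat.Agent.GAL.Cheb.Defs

/-!
# GAL, block CHEB, package (E-H): at an unramified prime every element of the decomposition group
is a power of every arithmetic Frobenius
-/

set_option autoImplicit false

namespace Fermat.Agent.GAL.Cheb

open NumberField IsDedekindDomain Fermat.Agent.S14.An
open scoped Pointwise

variable {L : Type*} [Field L] [NumberField L]

theorem frobGen_pow_congr (P : Ideal (𝓞 L)) (ℓ : ℕ) (τ : Gal(L/ℚ))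
    (hτ : ∀ x : 𝓞 L, τ • x - x ^ ℓ ∈ P) (n : ℕ) (x : 𝓞 L) :
    (τ ^ n) • x - x ^ (ℓ ^ n) ∈ P := by
  induction n generalizing x with
  | zero => simp
  | succ k ih =>
    have h1 := ih (τ • x)
    have h2 : (τ • x) ^ (ℓ ^ k) - (x ^ ℓ) ^ (ℓ ^ k) ∈ P :=
      Ideal.mem_of_dvd P (sub_dvd_pow_sub_pow _ _ _) (hτ x)
    have h3 := P.add_mem h1 h2
    rw [pow_succ, mul_smul, pow_succ', pow_mul]
    convert h3 using 1
    ring

/-- An element of the decomposition group acts on the residue field as a power of Frobenius. -/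
theorem frobGen_exists_pow (v : HeightOneSpectrum (𝓞 L)) {ℓ : ℕ} (hℓ : ℓ.Prime)
    (hℓv : (ℓ : 𝓞 L) ∈ v.asIdeal) (g : Gal(L/ℚ)) (hD : g ∈ Dec v) :
    ∃ m : ℕ, ∀ x : 𝓞 L, g • x - x ^ (ℓ ^ m) ∈ v.asIdeal := by
  classical
  set P := v.asIdeal with hP
  have hPmax : P.IsMaximal := v.isMaximal
  let p : Ideal ℤ := P.under ℤ
  have hpmax : p.IsMaximal := inferInstance
  have hlies : P.LiesOver p := ⟨rfl⟩
  let _ : Field (ℤ ⧸ p) := Ideal.Quotient.field p
  let _ : Field (𝓞 L ⧸ P) := Ideal.Quotient.field P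
  have hfin : Finite (𝓞 L ⧸ P) := Ideal.finiteQuotientOfFreeOfNeBot P v.ne_bot
  have hpspan : p = Ideal.span {(ℓ : ℤ)} := by
    have hmax : (Ideal.span {(ℓ : ℤ)}).IsMaximal :=
      PrincipalIdealRing.isMaximal_of_irreducible (Nat.prime_iff_prime_int.mp hℓ).irreducible
    refine (hmax.eq_of_le hpmax.ne_top ?_).symm
    rw [Ideal.span_singleton_le_iff_mem, Ideal.mem_comap]
    simpa using hℓv
  have hfinp : Finite (ℤ ⧸ p) := Finite.of_injective _ (algebraMap (ℤ ⧸ p) (𝓞 L ⧸ P)).injective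
  let _ : Fintype (ℤ ⧸ p) := Fintype.ofFinite _
  have hcard : Fintype.card (ℤ ⧸ p) = ℓ := by
    rw [← Nat.card_eq_fintype_card, ← Submodule.cardQuot_apply, ← Ideal.absNorm_apply, hpspan,
      Ideal.absNorm_span_singleton]
    simp
  obtain ⟨n, hn⟩ := (FiniteField.bijective_frobeniusAlgEquivOfAlgebraic_pow (ℤ ⧸ p) (𝓞 L ⧸ P)).2
    (Ideal.Quotient.stabilizerHom P p Gal(L/ℚ) ⟨g, hD⟩)
  refine ⟨n, fun x => ?_⟩
  have h2 := DFunLike.congr_fun hn (Ideal.Quotient.mk P x)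
  rw [AlgEquiv.coe_pow, FiniteField.coe_frobeniusAlgEquivOfAlgebraic_iterate, hcard] at h2
  rw [← Ideal.Quotient.eq, map_pow]
  exact h2.symm

/-- **(E-H)** At a prime with trivial inertia group, every element of the decomposition group is a
power of every arithmetic Frobenius. -/
theorem exists_pow_eq_of_mem_dec (v : HeightOneSpectrum (𝓞 L)) {ℓ : ℕ} (hℓ : ℓ.Prime)
    (hℓv : (ℓ : 𝓞 L) ∈ v.asIdeal) (g : Gal(L/ℚ)) (hD : g ∈ Dec v) (hI : Ine v = ⊥)
    (τ : Gal(L/ℚ)) (hτ : ∀ x : 𝓞 L, τ • x - x ^ ℓ ∈ v.asIdeal) : ∃ j : ℕ, τ ^ j = g := by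
  obtain ⟨n, h1⟩ := frobGen_exists_pow v hℓ hℓv g hD
  refine ⟨n, ?_⟩
  have h3 : ∀ x : 𝓞 L, g • x - (τ ^ n) • x ∈ v.asIdeal := by
    intro x
    have h4 := v.asIdeal.sub_mem (h1 x) (frobGen_pow_congr v.asIdeal ℓ τ hτ n x)
    simpa using h4
  have h5 : g⁻¹ * τ ^ n ∈ Ine v := by
    intro x
    have h6 := h3 x
    have h7 : g⁻¹ • (g • x - (τ ^ n) • x) ∈ v.asIdeal := by
      have hg : g⁻¹ • v.asIdeal = v.asIdeal := by
        rw [inv_smul_eq_iff]
        exact hD.symm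
      have h9 := Ideal.smul_mem_pointwise_smul g⁻¹ _ v.asIdeal h6
      rw [hg] at h9
      exact h9
    rw [smul_sub, inv_smul_smul, ← mul_smul] at h7
    have h8 := v.asIdeal.neg_mem h7
    rw [neg_sub] at h8
    exact h8
  rw [hI, Subgroup.mem_bot, inv_mul_eq_one] at h5
  exact h5.symm

/-- The number field form of weak Chebotarev follows from the existence of unramified primes
outside `T` whose decomposition group contains `g`. -/
theorem weakChebotarevNF_of_exists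
    (h : ∀ (L : Type) [Field L] [NumberField L] [IsGalois ℚ L] (T : Finset ℕ) (g : Gal(L/ℚ)),
      ∃ v : HeightOneSpectrum (𝓞 L), degUnder v ∉ T ∧ g ∈ Dec v ∧ Ine v = ⊥) :
    WeakChebotarevNF := by
  intro L _ _ _ T g
  obtain ⟨v, hT, hD, hI⟩ := h L T g
  have hmem : ((degUnder v : ℕ) : 𝓞 L) ∈ v.asIdeal := by
    have h1 := (degUnder_liesOver v).over
    have h2 : ((degUnder v : ℕ) : ℤ) ∈ v.asIdeal.under ℤ := by
      rw [← h1]
      exact Ideal.mem_span_singleton_self _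
    rw [Ideal.under_def, Ideal.mem_comap] at h2
    simpa using h2
  exact ⟨degUnder v, v.asIdeal, degUnder_prime v, hT, v.isPrime, hmem, fun τ hτ =>
    exists_pow_eq_of_mem_dec v (degUnder_prime v) hmem g hD hI τ hτ⟩

end Fermat.Agent.GAL.Cheb
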