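import Fermat.Agent.GAL.Cheb.Defs

/-! # CHEB-3 : inertia is almost always trivial; then Frobenius generates the decomposition group -/

set_option autoImplicit false
set_option linter.unusedSectionVars false
set_option linter.style.haveILetI false

namespace Fermat.Agent.GAL.Cheb

open NumberField IsDedekindDomain Fermat.Agent.S14.An
open scoped Pointwise Classical

/-- every ring automorphism of a finite field of characteristic `p` is a power of Frobenius. -/
theorem ine_exists_pow_of_ringEquiv {k : Type*} [Field k] [Finite k] (p : ℕ) [Fact p.Prime]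
    [CharP k p] (e : k ≃+* k) : ∃ j : ℕ, ∀ x : k, e x = x ^ p ^ j := by
  letI : Algebra (ZMod p) k := ZMod.algebra k p
  let e' : k ≃ₐ[ZMod p] k := AlgEquiv.ofRingEquiv (f := e) (fun r => by
    have : (e : k →+* k).comp (algebraMap (ZMod p) k) = algebraMap (ZMod p) k :=
      Subsingleton.elim _ _
    exact DFunLike.congr_fun this r)
  obtain ⟨n, hn⟩ := (FiniteField.bijective_frobeniusAlgEquivOfAlgebraic_pow (ZMod p) k).2 e'
  refine ⟨n.1, fun x => ?_⟩
  have h1 : e x = e' x := rfl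
  rw [h1, ← hn]
  simp only
  rw [AlgEquiv.coe_pow, FiniteField.coe_frobeniusAlgEquivOfAlgebraic_iterate, ZMod.card]

variable (L : Type*) [Field L] [NumberField L] [IsGalois ℚ L]

theorem ine_exists_smul_ne {τ : Gal(L/ℚ)} (hτ : τ ≠ 1) : ∃ x : 𝓞 L, τ • x ≠ x := by
  by_contra h
  push Not at h
  apply hτ
  ext y
  obtain ⟨a, b, hb, rfl⟩ := IsFractionRing.div_surjective (A := 𝓞 L) y
  have ha := congrArg (algebraMap (𝓞 L) L) (h a)
  have hb' := congrArg (algebraMap (𝓞 L) L) (h b)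
  rw [map_div₀]
  simp only [AlgEquiv.one_apply]
  have ea : τ (algebraMap (𝓞 L) L a) = algebraMap (𝓞 L) L (τ • a) := rfl
  have eb : τ (algebraMap (𝓞 L) L b) = algebraMap (𝓞 L) L (τ • b) := rfl
  rw [ea, eb, ha, hb']

theorem finite_ine_ne_bot : {v : HeightOneSpectrum (𝓞 L) | Ine v ≠ ⊥}.Finite := by
  choose! x hx using fun (τ : Gal(L/ℚ)) (hτ : τ ≠ 1) => ine_exists_smul_ne L hτ
  have h : {v : HeightOneSpectrum (𝓞 L) | Ine v ≠ ⊥} ⊆
      ⋃ τ ∈ {τ : Gal(L/ℚ) | τ ≠ 1},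
        {v : HeightOneSpectrum (𝓞 L) | v.asIdeal ∣ Ideal.span {τ • x τ - x τ}} := by
    intro v hv
    have hv' : Ine v ≠ ⊥ := hv
    obtain ⟨τ, hτ1⟩ := (Subgroup.ne_bot_iff_exists_ne_one).mp hv'
    have hτ1' : (τ : Gal(L/ℚ)) ≠ 1 := fun h => hτ1 (Subtype.ext h)
    simp only [Set.mem_iUnion, exists_prop]
    refine ⟨τ, hτ1', ?_⟩
    show v.asIdeal ∣ _
    rw [Ideal.dvd_iff_le, Ideal.span_singleton_le_iff_mem]
    exact τ.2 (x τ)
  refine Set.Finite.subset (Set.Finite.biUnion (Set.toFinite _) fun τ hτ => ?_) h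
  apply Ideal.finite_factors
  intro h0
  rw [Ideal.zero_eq_bot, Ideal.span_singleton_eq_bot, sub_eq_zero] at h0
  exact hx τ hτ h0

theorem exists_finset_ine : ∃ S : Finset ℕ, ∀ v : HeightOneSpectrum (𝓞 L),
    Ine v ≠ ⊥ → degUnder v ∈ S :=
  ⟨(finite_ine_ne_bot L).toFinset.image degUnder, fun _ hv =>
    Finset.mem_image_of_mem _ ((finite_ine_ne_bot L).mem_toFinset.2 hv)⟩

variable {L}

/-- powers of a Frobenius element. -/
theorem ine_frob_pow (v : HeightOneSpectrum (𝓞 L)) (σ : Gal(L/ℚ))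
    (hσ : ∀ x : 𝓞 L, σ • x - x ^ degUnder v ∈ v.asIdeal) (j : ℕ) (x : 𝓞 L) :
    (σ ^ j) • x - x ^ degUnder v ^ j ∈ v.asIdeal := by
  induction j generalizing x with
  | zero => simp
  | succ j ih =>
    have h1 := ih (σ • x)
    have h2 : (σ • x) ^ degUnder v ^ j - (x ^ degUnder v) ^ degUnder v ^ j ∈ v.asIdeal :=
      Ideal.mem_of_dvd _ (sub_dvd_pow_sub_pow _ _ _) (hσ x)
    have h3 : (σ ^ (j + 1)) • x - x ^ degUnder v ^ (j + 1) =
        ((σ ^ j) • (σ • x) - (σ • x) ^ degUnder v ^ j) +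
          ((σ • x) ^ degUnder v ^ j - (x ^ degUnder v) ^ degUnder v ^ j) := by
      rw [pow_succ σ, mul_smul, ← pow_mul, pow_succ' (degUnder v) j]
      ring
    rw [h3]
    exact add_mem h1 h2

theorem ine_frob_mem_dec (v : HeightOneSpectrum (𝓞 L)) (σ : Gal(L/ℚ))
    (hσ : ∀ x : 𝓞 L, σ • x - x ^ degUnder v ∈ v.asIdeal) : σ ∈ Dec v := by
  have hle : v.asIdeal ≤ σ⁻¹ • v.asIdeal := by
    intro x hx
    rw [Ideal.mem_inv_pointwise_smul_iff]
    have h1 := hσ x
    have h2 : x ^ degUnder v ∈ v.asIdeal :=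
      Ideal.pow_mem_of_mem _ hx _ (degUnder_prime v).pos
    have h3 := add_mem h1 h2
    simpa using h3
  have hmax : v.asIdeal.IsMaximal := v.isMaximal
  have hne : σ⁻¹ • v.asIdeal ≠ ⊤ := by
    intro h
    have := congrArg (fun I => σ • I) h
    simp only [smul_inv_smul] at this
    rw [Ideal.pointwise_smul_eq_comap, Ideal.comap_top] at this
    exact hmax.ne_top this
  have heq := hmax.eq_of_le hne hle
  rw [MulAction.mem_stabilizer_iff]
  conv_lhs => rw [heq]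
  simp

theorem dec_eq_zpowers (v : HeightOneSpectrum (𝓞 L)) (hv : Ine v = ⊥) (σ : Gal(L/ℚ))
    (hσ : ∀ x : 𝓞 L, σ • x - x ^ degUnder v ∈ v.asIdeal) : Dec v = Subgroup.zpowers σ := by
  apply le_antisymm
  · intro τ hτ
    haveI : Fact (degUnder v).Prime := ⟨degUnder_prime v⟩
    haveI hmax : v.asIdeal.IsMaximal := v.isMaximal
    letI : Field (𝓞 L ⧸ v.asIdeal) := Ideal.Quotient.field v.asIdeal
    haveI : Finite (𝓞 L ⧸ v.asIdeal) := Ideal.finiteQuotientOfFreeOfNeBot _ v.ne_bot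
    haveI : CharP (𝓞 L ⧸ v.asIdeal) (degUnder v) := by
      have hmem : ((degUnder v : ℕ) : 𝓞 L) ∈ v.asIdeal := by
        have h := degUnder_liesOver v
        have h1 : ((degUnder v : ℕ) : ℤ) ∈ Ideal.span {((degUnder v : ℕ) : ℤ)} :=
          Ideal.mem_span_singleton_self _
        rw [h.over, Ideal.mem_comap] at h1
        simpa using h1
      have h0 : ((degUnder v : ℕ) : 𝓞 L ⧸ v.asIdeal) = 0 := by
        have := (Ideal.Quotient.eq_zero_iff_mem (I := v.asIdeal)).2 hmem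
        simpa using this
      exact (CharP.charP_iff_prime_eq_zero (degUnder_prime v)).2 h0
    let e : (𝓞 L ⧸ v.asIdeal) ≃+* (𝓞 L ⧸ v.asIdeal) :=
      (Ideal.Quotient.stabilizerHom v.asIdeal (Ideal.under ℤ v.asIdeal) Gal(L/ℚ)
        ⟨τ, hτ⟩).toRingEquiv
    obtain ⟨j, hj⟩ := ine_exists_pow_of_ringEquiv (degUnder v) e
    have hmem : τ * (σ ^ j)⁻¹ ∈ Ine v := by
      intro x
      have h1 : τ • ((σ ^ j)⁻¹ • x) - ((σ ^ j)⁻¹ • x) ^ degUnder v ^ j ∈ v.asIdeal := by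
        have := hj (Ideal.Quotient.mk v.asIdeal ((σ ^ j)⁻¹ • x))
        rw [← map_pow] at this
        exact (Ideal.Quotient.eq).1 this
      have h2 := ine_frob_pow v σ hσ j ((σ ^ j)⁻¹ • x)
      rw [smul_inv_smul] at h2
      have h3 := sub_mem h1 h2
      rw [mul_smul]
      have h4 : τ • (σ ^ j)⁻¹ • x - x = τ • (σ ^ j)⁻¹ • x - ((σ ^ j)⁻¹ • x) ^ degUnder v ^ j -
          (x - ((σ ^ j)⁻¹ • x) ^ degUnder v ^ j) := by ring
      rw [h4]
      exact h3
    rw [hv, Subgroup.mem_bot, mul_inv_eq_one] at hmem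
    rw [hmem]
    exact Subgroup.pow_mem _ (Subgroup.mem_zpowers σ) j
  · rw [Subgroup.zpowers_le]
    exact ine_frob_mem_dec v σ hσ

end Fermat.Agent.GAL.Cheb
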