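import Fermat.Agent.GAL.Cheb.Defs

/-! # CHEB-2 : induction over the subgroup lattice -/

set_option autoImplicit false
set_option linter.unusedSectionVars false

namespace Fermat.Agent.GAL.Cheb

open NumberField IsDedekindDomain Fermat.Agent.S14.An
open scoped Pointwise Classical

variable {G : Type*} [Group G] [Finite G] {X : Type*}

/-- `|H| = ∑_{D' ≤ H} #{g | ⟨g⟩ = D'}`. -/
theorem lattice_card_eq_sum [Fintype (Subgroup G)] (H : Subgroup G) :
    (Nat.card H : ℝ) = ∑ D' ∈ Finset.univ.filter (fun D' : Subgroup G => D' ≤ H),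
      (Nat.card {g : G // Subgroup.zpowers g = D'} : ℝ) := by
  have : Fintype G := Fintype.ofFinite G
  have h1 : Nat.card H = (Finset.univ.filter (fun g : G => g ∈ H)).card := by
    rw [Nat.card_eq_fintype_card, Fintype.card_subtype]
  have h2 := Finset.card_eq_sum_card_fiberwise (f := fun g : G => Subgroup.zpowers g)
    (s := Finset.univ.filter (fun g : G => g ∈ H))
    (t := Finset.univ.filter (fun D' : Subgroup G => D' ≤ H)) (by
      intro g hg
      simp only [Finset.coe_filter, Finset.mem_univ, true_and, Set.mem_ofPred_eq] at hg ⊢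
      exact (Subgroup.zpowers_le).2 hg)
  rw [h1, h2]
  push_cast
  refine Finset.sum_congr rfl fun D' hD' => ?_
  have hD'' : D' ≤ H := (Finset.mem_filter.1 hD').2
  rw [Nat.card_eq_fintype_card, Fintype.card_subtype]
  congr 2
  ext g
  simp only [Finset.mem_filter, Finset.mem_univ, true_and, and_iff_right_iff_imp]
  intro hg
  exact hD'' (hg ▸ Subgroup.mem_zpowers g)

theorem lattice (D : X → Subgroup G) (a : X → ℝ → ℝ)
    (hsum : ∀ s : ℝ, 1 < s → s ≤ 2 → Summable (fun x => a x s)) (Λ : ℝ → ℝ)
    (h : ∀ H : Subgroup G, BddDiff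
      (fun s => ∑' x : X, if D x ≤ H then (Nat.card (D x) : ℝ) * a x s else 0)
      (fun s => (Nat.card H : ℝ) * Λ s)) (H : Subgroup G) :
    BddDiff (fun s => (Nat.card H : ℝ) * ∑' x : X, if D x = H then a x s else 0)
      (fun s => (Nat.card {g : G // Subgroup.zpowers g = H} : ℝ) * Λ s) := by
  have : Fintype (Subgroup G) := Fintype.ofFinite _
  have hsumm : ∀ (D' : Subgroup G) (s : ℝ), 1 < s → s ≤ 2 →
      Summable (fun x => if D x = D' then a x s else 0) := by
    intro D' s h1 h2
    have hi := (hsum s h1 h2).indicator {x | D x = D'}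
    have he : (fun x => if D x = D' then a x s else 0) =
        Set.indicator {x | D x = D'} (fun x => a x s) := by
      funext x
      by_cases hx : D x = D'
      · rw [if_pos hx, Set.indicator_of_mem (show x ∈ {x | D x = D'} from hx)]
      · rw [if_neg hx, Set.indicator_of_notMem (show x ∉ {x | D x = D'} from hx)]
    rw [he]
    exact hi
  have key1 : ∀ (H : Subgroup G) (s : ℝ), 1 < s → s ≤ 2 →
      (∑' x : X, if D x ≤ H then (Nat.card (D x) : ℝ) * a x s else 0) =
        ∑ D' ∈ Finset.univ.filter (fun D' : Subgroup G => D' ≤ H),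
          (Nat.card D' : ℝ) * ∑' x : X, if D x = D' then a x s else 0 := by
    intro H s h1 h2
    have hx : ∀ x, (if D x ≤ H then (Nat.card (D x) : ℝ) * a x s else 0) =
        ∑ D' ∈ Finset.univ.filter (fun D' : Subgroup G => D' ≤ H),
          (Nat.card D' : ℝ) * (if D x = D' then a x s else 0) := by
      intro x
      by_cases hx : D x ≤ H
      · rw [if_pos hx, Finset.sum_eq_single (D x)]
        · simp
        · intro b _ hb
          rw [if_neg (Ne.symm hb), mul_zero]
        · intro hn
          exact absurd (by simp [hx]) hn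
      · rw [if_neg hx]
        symm
        apply Finset.sum_eq_zero
        intro b hb
        have : D x ≠ b := by
          rintro rfl
          exact hx (Finset.mem_filter.1 hb).2
        rw [if_neg this, mul_zero]
    simp_rw [hx]
    rw [Summable.tsum_finsetSum]
    · refine Finset.sum_congr rfl fun D' _ => ?_
      rw [tsum_mul_left]
    · intro D' _
      exact (hsumm D' s h1 h2).mul_left _
  induction H using WellFoundedLT.induction with
  | _ H ih =>
    have hins : Finset.univ.filter (fun D' : Subgroup G => D' ≤ H) =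
        insert H (Finset.univ.filter (fun D' : Subgroup G => D' < H)) := by
      ext D'
      simp only [Finset.mem_filter, Finset.mem_univ, true_and, Finset.mem_insert]
      rw [le_iff_eq_or_lt]
    have hnot : H ∉ Finset.univ.filter (fun D' : Subgroup G => D' < H) := by simp
    have h2 : BddDiff (fun s => ∑ D' ∈ Finset.univ.filter (fun D' : Subgroup G => D' ≤ H),
          (Nat.card D' : ℝ) * ∑' x : X, if D x = D' then a x s else 0)
        (fun s => ∑ D' ∈ Finset.univ.filter (fun D' : Subgroup G => D' ≤ H),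
          (Nat.card {g : G // Subgroup.zpowers g = D'} : ℝ) * Λ s) :=
      (h H).congr (fun s h1 h2 => (key1 H s h1 h2).symm)
        (fun s _ _ => by rw [lattice_card_eq_sum H, Finset.sum_mul])
    have h3 : BddDiff (fun s => ∑ D' ∈ Finset.univ.filter (fun D' : Subgroup G => D' < H),
          (Nat.card D' : ℝ) * ∑' x : X, if D x = D' then a x s else 0)
        (fun s => ∑ D' ∈ Finset.univ.filter (fun D' : Subgroup G => D' < H),
          (Nat.card {g : G // Subgroup.zpowers g = D'} : ℝ) * Λ s) :=
      BddDiff.sum _ (fun D' hD' => ih D' (Finset.mem_filter.1 hD').2)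
    refine (h2.sub h3).congr ?_ ?_
    · intro s _ _
      rw [hins, Finset.sum_insert hnot, add_sub_cancel_right]
    · intro s _ _
      rw [hins, Finset.sum_insert hnot, add_sub_cancel_right]

theorem exists_of_lattice (D : X → Subgroup G) (a : X → ℝ → ℝ)
    (hsum : ∀ s : ℝ, 1 < s → s ≤ 2 → Summable (fun x => a x s)) (Λ : ℝ → ℝ)
    (hΛ : ∀ C : ℝ, ∃ s : ℝ, 1 < s ∧ s ≤ 2 ∧ C < Λ s)
    (h : ∀ H : Subgroup G, BddDiff
      (fun s => ∑' x : X, if D x ≤ H then (Nat.card (D x) : ℝ) * a x s else 0)
      (fun s => (Nat.card H : ℝ) * Λ s)) (g : G) :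
    ∃ (x : X) (s : ℝ), D x = Subgroup.zpowers g ∧ a x s ≠ 0 := by
  by_contra hcon
  push Not at hcon
  obtain ⟨C, hC⟩ := lattice D a hsum Λ h (Subgroup.zpowers g)
  obtain ⟨s, hs1, hs2, hs⟩ := hΛ (max C 0)
  have h0 : (∑' x : X, if D x = Subgroup.zpowers g then a x s else 0) = 0 := by
    have : ∀ x, (if D x = Subgroup.zpowers g then a x s else 0) = 0 := by
      intro x
      split_ifs with hx
      · exact hcon x s hx
      · rfl
    simp_rw [this]
    exact tsum_zero
  have h1 := hC s hs1 hs2
  beta_reduce at h1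
  rw [h0, mul_zero, zero_sub, abs_neg] at h1
  have hc : (1 : ℝ) ≤ (Nat.card {g' : G // Subgroup.zpowers g' = Subgroup.zpowers g} : ℝ) := by
    have : 0 < Nat.card {g' : G // Subgroup.zpowers g' = Subgroup.zpowers g} := by
      have : Nonempty {g' : G // Subgroup.zpowers g' = Subgroup.zpowers g} := ⟨⟨g, rfl⟩⟩
      exact Nat.card_pos
    exact_mod_cast this
  have hpos : 0 < Λ s := lt_of_le_of_lt (le_max_right _ _) hs
  have hCs : C < Λ s := lt_of_le_of_lt (le_max_left _ _) hs
  have h2 : Λ s ≤ (Nat.card {g' : G // Subgroup.zpowers g' = Subgroup.zpowers g} : ℝ) * Λ s := by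
    nlinarith
  have h3 := le_abs_self ((Nat.card {g' : G // Subgroup.zpowers g' = Subgroup.zpowers g} : ℝ) * Λ s)
  linarith

end Fermat.Agent.GAL.Cheb
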