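import Fermat.Agent.S14.T1.DictA
import Fermat.Prelude.Def_EllipticCurve_FrobeniusTrace

/-!
# GAL, block CHEB, package (E5): transfer of the number field statement to `Gal(ℚ̄/ℚ)`
-/

set_option autoImplicit false

namespace Fermat.Agent.GAL.Cheb

open NumberField
open scoped Pointwise

local notation "Qbar" => AlgebraicClosure ℚ
local notation "GQ" => (AlgebraicClosure ℚ ≃ₐ[ℚ] AlgebraicClosure ℚ)

/-- The number field core of the weak Chebotarev theorem (Frobenius' density theorem):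
for a finite Galois extension `E/ℚ`, `τ ∈ Gal(E/ℚ)` and a finite set `T` of primes there is a
prime `P` of `𝓞 E` over some `ℓ ∉ T` such that `τ` is a power of every Frobenius at `P`. -/
def Core : Prop :=
  ∀ (E : IntermediateField ℚ Qbar) [FiniteDimensional ℚ E] [IsGalois ℚ E] (τ : E ≃ₐ[ℚ] E)
    (T : Finset ℕ),
    ∃ (ℓ : ℕ) (P : Ideal (𝓞 E)), ℓ.Prime ∧ ℓ ∉ T ∧ P.IsPrime ∧ (ℓ : 𝓞 E) ∈ P ∧
      ∀ φ : E ≃ₐ[ℚ] E, (∀ x : 𝓞 E, ∃ y ∈ P, ((y : 𝓞 E) : E) = φ (x : E) - (x : E) ^ ℓ) →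
        ∃ j : ℕ, φ ^ j = τ

/-- The final export of the block (helper88's contract I2). -/
def WeakChebotarevStatement : Prop :=
  ∀ (L : IntermediateField ℚ Qbar), FiniteDimensional ℚ L → ∀ (T : Finset ℕ) (g : GQ),
    ∃ (ℓ : ℕ) (A : ValuationSubring Qbar) (σ : GQ) (j : ℕ), ℓ.Prime ∧ ℓ ∉ T ∧
      A.LiesOverPrime ℓ ∧ A.IsFrobeniusAt σ ℓ ∧ ∀ x ∈ L, (σ ^ j) x = g x

/-- A Frobenius at `A` is congruent to the `ℓ`-th power map modulo the maximal ideal. -/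
theorem sub_pow_mem_nonunits {A : ValuationSubring Qbar} {σ : GQ} {ℓ : ℕ}
    (h : A.IsFrobeniusAt σ ℓ) (x : Qbar) (hx : x ∈ A) : σ x - x ^ ℓ ∈ A.nonunits := by
  obtain ⟨hσ, hfrob⟩ := h
  have h1 := hfrob (IsLocalRing.residue A ⟨x, hx⟩)
  rw [← IsLocalRing.ResidueField.residue_smul, ← map_pow, ← sub_eq_zero, ← map_sub,
    IsLocalRing.residue_eq_zero_iff] at h1
  have h2 := (ValuationSubring.mem_nonunits_iff_exists_mem_maximalIdeal (A := A)).2 ⟨_, h1⟩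
  exact h2

theorem weakChebotarev_of_core (hcore : Core) : WeakChebotarevStatement := by
  intro L hL T g
  let E : IntermediateField ℚ Qbar := IntermediateField.normalClosure ℚ L Qbar
  have hgal : IsGalois ℚ Qbar := Fermat.Agent.Lib.FrobeniusExists.isGalois_algebraicClosure_rat
  have : FiniteDimensional ℚ E := normalClosure.is_finiteDimensional ℚ L Qbar
  have : Normal ℚ E := normalClosure.normal ℚ L Qbar
  have : IsGalois ℚ E := ⟨⟩
  have hLE : L ≤ E := IntermediateField.le_normalClosure L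
  obtain ⟨τ, hτ⟩ := Fermat.Agent.S14.exists_restrict E g
  obtain ⟨ℓ, P, hℓ, hℓT, hP, hℓP, hφ⟩ := hcore E τ T
  obtain ⟨A, hA⟩ := Fermat.Agent.S14.exists_valuationSubring_over E P hP
  have hAℓ : A.LiesOverPrime ℓ := by
    have := (hA (ℓ : 𝓞 E)).1 hℓP
    simpa [ValuationSubring.LiesOverPrime] using this
  obtain ⟨σ, hσ⟩ := Fermat.Agent.Lib.FrobeniusExists.exists_isFrobeniusAt_rat A hℓ hAℓ
  obtain ⟨φ, hφσ⟩ := Fermat.Agent.S14.exists_restrict E σ
  obtain ⟨j, hj⟩ := hφ φ (by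
    intro x
    refine ⟨RingOfIntegers.mapRingEquiv (φ : E ≃+* E) x - x ^ ℓ, ?_, ?_⟩
    · rw [hA]
      have hxint : IsIntegral ℤ (((x : E) : Qbar)) := x.2.map E.val
      have hxA : (((x : E) : Qbar)) ∈ A :=
        Fermat.Agent.Lib.FrobeniusExists.integralClosure_le A ⟨_, hxint⟩
      have h1 := sub_pow_mem_nonunits hσ _ hxA
      rw [← hφσ] at h1
      simpa using h1
    · simp)
  refine ⟨ℓ, A, σ, j, hℓ, hℓT, hAℓ, hσ, fun x hx => ?_⟩
  have hxE : x ∈ E := hLE hx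
  have hpow : ∀ (n : ℕ) (y : E), (((φ ^ n) y : E) : Qbar) = (σ ^ n) (y : Qbar) := by
    intro n
    induction n with
    | zero => intro y; simp
    | succ n ih =>
      intro y
      rw [pow_succ, pow_succ, AlgEquiv.mul_apply, AlgEquiv.mul_apply, ih, hφσ]
  have h2 := hpow j ⟨x, hxE⟩
  rw [hj, hτ] at h2
  exact h2.symm

/-- The number field contract in abstract form (every arithmetic Frobenius at `v` has `g` among
its powers). -/
def WeakChebotarevNF : Prop :=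
  ∀ (L : Type) [Field L] [NumberField L] [IsGalois ℚ L] (T : Finset ℕ) (g : L ≃ₐ[ℚ] L),
    ∃ (ℓ : ℕ) (v : Ideal (𝓞 L)), ℓ.Prime ∧ ℓ ∉ T ∧ v.IsPrime ∧ (ℓ : 𝓞 L) ∈ v ∧
      ∀ τ : L ≃ₐ[ℚ] L,
        (∀ x : 𝓞 L, RingOfIntegers.mapRingEquiv (τ : L ≃+* L) x - x ^ ℓ ∈ v) → ∃ j : ℕ, τ ^ j = g

theorem core_of_NF (h : WeakChebotarevNF) : Core := by
  intro E _ _ τ T
  have : NumberField E := { to_charZero := inferInstance, to_finiteDimensional := inferInstance }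
  obtain ⟨ℓ, v, hℓ, hT, hv, hℓv, hτ⟩ := h E T τ
  refine ⟨ℓ, v, hℓ, hT, hv, hℓv, fun φ hφ => hτ φ fun x => ?_⟩
  obtain ⟨y, hy, hyx⟩ := hφ x
  have : RingOfIntegers.mapRingEquiv (φ : E ≃+* E) x - x ^ ℓ = y := by
    apply RingOfIntegers.ext
    rw [hyx]
    simp
  rw [this]
  exact hy

theorem weakChebotarev_of_NF (h : WeakChebotarevNF) (L : IntermediateField ℚ Qbar)
    [hL : FiniteDimensional ℚ L] (T : Finset ℕ) (g : GQ) :
    ∃ (ℓ : ℕ) (A : ValuationSubring Qbar) (σ : GQ) (j : ℕ), ℓ.Prime ∧ ℓ ∉ T ∧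
      A.LiesOverPrime ℓ ∧ A.IsFrobeniusAt σ ℓ ∧ ∀ x ∈ L, (σ ^ j) x = g x :=
  weakChebotarev_of_core (core_of_NF h) L hL T g

end Fermat.Agent.GAL.Cheb
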