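import Fermat.Agent.GAL.Cheb.FiberSum
import Fermat.Agent.GAL.Cheb.Lattice
import Fermat.Agent.GAL.Cheb.Inertia
import Fermat.Agent.GAL.Cheb.Transfer

/-!
# CHEB : the weak Chebotarev theorem (Frobenius' density theorem, existence form)

Every element of a finite quotient of `Gal(ℚ̄/ℚ)` is a power of a Frobenius element at a prime
outside any given finite set.
-/

set_option autoImplicit false
set_option linter.unusedSectionVars false

namespace Fermat.Agent.GAL.Cheb

open NumberField IsDedekindDomain Fermat.Agent.S14.An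
open scoped Pointwise Classical

local notation "Qbar" => AlgebraicClosure ℚ
local notation "GQ" => (AlgebraicClosure ℚ ≃ₐ[ℚ] AlgebraicClosure ℚ)

/-- number field form: there is a prime `v` outside `T`, with trivial inertia, whose decomposition
group is the cyclic group generated by `g`. -/
theorem exists_dec_eq_zpowers (L : Type*) [Field L] [NumberField L] [IsGalois ℚ L]
    (T : Finset ℕ) (g : Gal(L/ℚ)) :
    ∃ v : HeightOneSpectrum (𝓞 L), degUnder v ∉ T ∧ Ine v = ⊥ ∧ Dec v = Subgroup.zpowers g := by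
  obtain ⟨S, hS⟩ := exists_finset_ine L
  have hS' : ∀ v : HeightOneSpectrum (𝓞 L), Ine v ≠ ⊥ → degUnder v ∈ S ∪ T :=
    fun v hv => Finset.mem_union_left _ (hS v hv)
  obtain ⟨v, s, hv, hs⟩ := exists_of_lattice (G := Gal(L/ℚ))
    (fun v : HeightOneSpectrum (𝓞 L) => Dec v)
    (fun v s => wt (S ∪ T) v s) (fun s hs _ => summable_wt L _ hs) Lam Lam_unbounded
    (fun H => fiber_sum H (S ∪ T) hS') g
  have h1 : degUnder v ∉ S ∪ T := by
    intro h
    exact hs (by simp [wt, h])
  refine ⟨v, fun h => h1 (Finset.mem_union_right _ h), ?_, hv⟩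
  by_contra h
  exact h1 (hS' v h)

theorem weakChebotarevNF : WeakChebotarevNF := by
  intro L _ _ _ T g
  obtain ⟨v, hT, hI, hD⟩ := exists_dec_eq_zpowers L T g
  refine ⟨degUnder v, v.asIdeal, degUnder_prime v, hT, v.isPrime, ?_, fun τ hτ => ?_⟩
  · have h1 := degUnder_liesOver v
    have h2 : ((degUnder v : ℕ) : ℤ) ∈ Ideal.span {((degUnder v : ℕ) : ℤ)} :=
      Ideal.mem_span_singleton_self _
    rw [h1.over, Ideal.mem_comap] at h2
    simpa using h2
  · have h3 : Dec v = Subgroup.zpowers τ := dec_eq_zpowers v hI τ (fun x => hτ x)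
    have h4 : g ∈ Subgroup.zpowers τ := by
      rw [← h3, hD]
      exact Subgroup.mem_zpowers g
    rw [← mem_powers_iff_mem_zpowers] at h4
    exact h4

/-- **Weak Chebotarev**: every element of a finite quotient of `G_ℚ` is a power of a Frobenius
element at a prime outside any given finite set. -/
theorem weakChebotarev (L : IntermediateField ℚ Qbar) [FiniteDimensional ℚ L] (T : Finset ℕ)
    (g : GQ) :
    ∃ (ℓ : ℕ) (A : ValuationSubring Qbar) (σ : GQ) (j : ℕ), ℓ.Prime ∧ ℓ ∉ T ∧
      A.LiesOverPrime ℓ ∧ A.IsFrobeniusAt σ ℓ ∧ ∀ x ∈ L, (σ ^ j) x = g x :=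
  weakChebotarev_of_NF weakChebotarevNF L T g

end Fermat.Agent.GAL.Cheb
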